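import Fermat.Agent.Flat.DescentSpan

/-!
Local models of quotients.  A `Frame` has a `ℚ̄`-basis `vec` of equivariant functions; let
`L ≅ R^n` be its `R = ℤ_(ℓ)`-span and `N ⊆ L` the `K`-invariant part (`K = ker q`).  `L/N` is
torsion free, hence free, so there is a projection `P : L → N`; its `ℚ̄`-linear extension fixes
every invariant function (average over `K`) and carries comultiplication to the quotient.
-/

set_option autoImplicit false
set_option linter.style.haveILetI false
set_option linter.unusedSectionVars false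

noncomputable section

namespace FLTAgent.FlatDatum

open FLTAgent.Flat

variable {ℓ : ℕ} [hℓ : Fact ℓ.Prime]

local notation "R₀" => GaloisRep.ratLocalizedAt ℓ

theorem natCast_coe (k : ℕ) : (((k : R₀) : R₀) : ℚ) = (k : ℚ) := map_natCast (GaloisRep.ratLocalizedAt ℓ).subtype k

theorem isUnit_of_num {x : R₀} (h : ¬ (ℓ : ℤ) ∣ (x : ℚ).num) : IsUnit x := by
  have hx0 : (x : ℚ) ≠ 0 := fun h0 => h (by simp [h0])
  have hmem : (x : ℚ)⁻¹ ∈ R₀ := by
    show ((x : ℚ)⁻¹).den.Coprime ℓ
    rw [Rat.den_inv, if_neg (Rat.num_ne_zero.2 hx0), Nat.coprime_comm,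
      hℓ.out.coprime_iff_not_dvd]
    exact fun hd => h (Int.natCast_dvd.2 hd)
  exact IsUnit.of_mul_eq_one (⟨(x : ℚ)⁻¹, hmem⟩ : R₀) (Subtype.ext (mul_inv_cancel₀ hx0))

/-- `ℤ_(ℓ)` is a principal ideal ring. -/
theorem isPrincipalIdealRing_R : IsPrincipalIdealRing R₀ := by
  classical
  refine ⟨fun I => ?_⟩
  by_cases hI : I = ⊥
  · subst hI; exact bot_isPrincipal
  have key : ∀ x : R₀, x ≠ 0 → ∃ (v : ℕ) (u : R₀), IsUnit u ∧ x = (ℓ : R₀) ^ v * u := by
    intro x hx
    have hx0 : (x : ℚ) ≠ 0 := fun h => hx (Subtype.ext h)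
    have hnum : (x : ℚ).num.natAbs ≠ 0 := Int.natAbs_ne_zero.2 (Rat.num_ne_zero.2 hx0)
    obtain ⟨v, w, hw, hxw⟩ := Nat.exists_eq_pow_mul_and_not_dvd hnum ℓ hℓ.out.ne_one
    have hℓ0 : (ℓ : ℚ) ≠ 0 := Nat.cast_ne_zero.2 hℓ.out.ne_zero
    set s : ℤ := (x : ℚ).num.sign * w with hs
    have hnumeq : (x : ℚ).num = (ℓ : ℤ) ^ v * s := by
      rw [hs]
      conv_lhs => rw [← Int.sign_mul_natAbs (x : ℚ).num, hxw]
      push_cast
      ring
    have hden : (x : ℚ).den.Coprime ℓ := x.2
    have hqmem : ((s : ℚ) / ((x : ℚ).den : ℚ)) ∈ R₀ := by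
      show ((s : ℚ) / ((x : ℚ).den : ℚ)).den.Coprime ℓ
      refine Nat.Coprime.coprime_dvd_left ?_ hden
      have := Rat.den_dvd s ((x : ℚ).den : ℤ)
      rw [Rat.divInt_eq_div, Int.cast_natCast] at this
      exact Int.natCast_dvd_natCast.1 this
    refine ⟨v, ⟨_, hqmem⟩, isUnit_of_num ?_, Subtype.ext ?_⟩
    · intro hd
      have h1 : ((s : ℚ) / ((x : ℚ).den : ℚ)).num ∣ s := by
        have := Rat.num_dvd s (b := ((x : ℚ).den : ℤ)) (Int.natCast_ne_zero.2 (x : ℚ).den_nz)
        rwa [Rat.divInt_eq_div, Int.cast_natCast] at this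
      have h2 : (ℓ : ℤ) ∣ s := dvd_trans hd h1
      rw [hs, Int.natCast_dvd, Int.natAbs_mul, Int.natAbs_sign_of_ne_zero (Rat.num_ne_zero.2 hx0),
        one_mul, Int.natAbs_natCast] at h2
      exact hw h2
    · show (x : ℚ) = (((ℓ : R₀) ^ v : R₀) : ℚ) * ((s : ℚ) / ((x : ℚ).den : ℚ))
      rw [SubmonoidClass.coe_pow, natCast_coe, ← mul_div_assoc, eq_div_iff (Nat.cast_ne_zero.2 (x : ℚ).den_nz),
        Rat.mul_den_eq_num, hnumeq]
      push_cast
      ring
  have hex : ∃ v : ℕ, (ℓ : R₀) ^ v ∈ I := by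
    obtain ⟨x, hxI, hx⟩ := Submodule.exists_mem_ne_zero_of_ne_bot hI
    obtain ⟨v, u, hu, rfl⟩ := key x hx
    exact ⟨v, (I.mul_unit_mem_iff_mem hu).1 hxI⟩
  refine ⟨(ℓ : R₀) ^ Nat.find hex, le_antisymm (fun x hxI => ?_) ?_⟩
  · by_cases hx : x = 0
    · subst hx; exact zero_mem _
    obtain ⟨v, u, hu, rfl⟩ := key x hx
    have hv : Nat.find hex ≤ v := Nat.find_min' hex ((I.mul_unit_mem_iff_mem hu).1 hxI)
    obtain ⟨j, rfl⟩ := Nat.exists_eq_add_of_le hv
    rw [Submodule.mem_span_singleton]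
    exact ⟨(ℓ : R₀) ^ j * u, by rw [smul_eq_mul, pow_add]; ring⟩
  · rw [Submodule.span_singleton_le_iff_mem]
    exact Nat.find_spec hex

theorem natCast_ne_zero_R {k : ℕ} (hk : k ≠ 0) : ((k : ℕ) : R₀) ≠ 0 := fun h => by
  have := congrArg (fun z : R₀ => (z : ℚ)) h
  simp only [natCast_coe, ZeroMemClass.coe_zero] at this
  exact hk (Nat.cast_eq_zero.1 this)

/-- an element of `A` fixed by Galois is in `ℤ_(ℓ)` -/
theorem exists_R_of_fixed {A : ValuationSubring Qb} (hA : A.LiesOverPrime ℓ) {z : Qb} (hz : z ∈ A)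
    (hfix : ∀ σ : GalQ, σ z = z) : ∃ r : R₀, algebraMap R₀ Qb r = z := by
  haveI := Common.isGalois_qbar
  obtain ⟨q, hq⟩ := IntermediateField.mem_bot.1 ((InfiniteGalois.mem_bot_iff_fixed z).2 hfix)
  have hq' : (q : Qb) = z := by rw [← hq, eq_ratCast]
  refine ⟨⟨q, den_coprime_of_mem hA (hq'.symm ▸ hz)⟩, ?_⟩
  show ((q : ℚ) : Qb) = z
  exact hq'

/-- the projection on the `N`-part, `N` saturated -/
theorem exists_projection {n : ℕ} (N : Submodule R₀ (Fin n → R₀))
    (hN : ∀ (a : R₀) (c : Fin n → R₀), a ≠ 0 → a • c ∈ N → c ∈ N) :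
    ∃ P : (Fin n → R₀) →ₗ[R₀] (Fin n → R₀), (∀ c, P c ∈ N) ∧ ∀ c ∈ N, P c = c := by
  haveI := isPrincipalIdealRing_R (ℓ := ℓ)
  haveI : Module.IsTorsionFree R₀ ((Fin n → R₀) ⧸ N) :=
    Module.isTorsionFree_iff_smul_eq_zero.2 fun a x hx => by
      obtain ⟨c, rfl⟩ := Submodule.mkQ_surjective N x
      by_cases ha : a = 0
      · exact Or.inl ha
      · refine Or.inr ((Submodule.Quotient.mk_eq_zero N).2 (hN a c ha ?_))
        rw [← map_smul] at hx
        exact (Submodule.Quotient.mk_eq_zero N).1 hx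
  haveI : Module.Free R₀ ((Fin n → R₀) ⧸ N) := Module.free_of_finite_type_torsion_free'
  obtain ⟨s, hs⟩ := Module.projective_lifting_property N.mkQ LinearMap.id N.mkQ_surjective
  refine ⟨LinearMap.id - s.comp N.mkQ, fun c => ?_, fun c hc => ?_⟩
  · rw [← Submodule.Quotient.mk_eq_zero N, ← Submodule.mkQ_apply, LinearMap.sub_apply, map_sub,
      LinearMap.comp_apply, ← LinearMap.comp_apply N.mkQ s, hs]
    simp
  · rw [LinearMap.sub_apply, LinearMap.comp_apply, Submodule.mkQ_apply,
      (Submodule.Quotient.mk_eq_zero N).2 hc, map_zero, sub_zero]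
    rfl

variable {G G' : Type} [AddCommGroup G] [DistribMulAction GalQ G]
  [AddCommGroup G'] [Finite G'] [DistribMulAction GalQ G']

theorem rawModel_quotient {A : ValuationSubring Qb} (hA : A.LiesOverPrime ℓ) (Fr : Frame G' A)
    (q : G' →+ G) (hq : Function.Surjective q) (hqσ : ∀ (σ : GalQ) x, q (σ • x) = σ • q x) :
    Nonempty (RawModel G A) := by
  classical
  haveI : Fintype G' := Fintype.ofFinite G'
  let bb : Module.Basis (Fin Fr.n) Qb (G' → Qb) := Module.Basis.mk Fr.indep Fr.top.ge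
  have hbb : ∀ i, bb i = Fr.vec i := fun i => Module.Basis.mk_apply _ _ i
  -- functions with coefficients in `R`
  let Φ : (Fin Fr.n → R₀) →ₗ[R₀] (G' → Qb) := Fintype.linearCombination R₀ Fr.vec
  have hΦ : ∀ c, Φ c = ∑ i, (algebraMap R₀ Qb (c i)) • Fr.vec i := fun c => by
    simp only [Φ, Fintype.linearCombination_apply, algebraMap_smul]
  have hΦmem : ∀ c, Φ c ∈ Fr.alg := fun c => by
    rw [hΦ]
    refine sum_mem fun i _ => ?_
    rw [show (algebraMap R₀ Qb (c i)) • Fr.vec i =
      (⟨algebraMap R₀ Qb (c i), ratLocalized_mem hℓ.out hA (c i)⟩ : A) • Fr.vec i from rfl]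
    refine Subalgebra.smul_mem _ ?_ _
    rw [← Subalgebra.mem_toSubmodule, ← Fr.span_eq]
    exact Submodule.subset_span ⟨i, rfl⟩
  have hΦfix : ∀ c (σ : GalQ), conjF σ (Φ c) = Φ c := fun c σ => by
    rw [hΦ, ← conjHom_apply, map_sum]
    refine Finset.sum_congr rfl fun i _ => ?_
    rw [conjHom_apply, conjF_smul, Fr.fixed,
      show σ (algebraMap R₀ Qb (c i)) = algebraMap R₀ Qb (c i) from σ.commutes (c i : ℚ)]
  -- invariance
  let Inv : Submodule Qb (G' → Qb) :=
    { carrier := {u | ∀ x k, q k = 0 → u (x + k) = u x}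
      add_mem' := fun {u v} hu hv x k hk => by simp [hu x k hk, hv x k hk]
      zero_mem' := fun x k _ => rfl
      smul_mem' := fun a u hu x k hk => by simp [hu x k hk] }
  let N : Submodule R₀ (Fin Fr.n → R₀) := (Inv.restrictScalars R₀).comap Φ
  obtain ⟨P, hPN, hPfix⟩ := exists_projection N fun a c ha h => by
    intro x k hk
    have h' := h x k hk
    rw [map_smul, Pi.smul_apply, Pi.smul_apply, Algebra.smul_def, Algebra.smul_def] at h'
    refine mul_left_cancel₀ ?_ h'
    intro h0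
    exact ha (Subtype.ext (by simpa using (algebraMap ℚ Qb).injective (show algebraMap ℚ Qb (a : ℚ) =
      algebraMap ℚ Qb 0 by rw [map_zero]; exact h0)))
  let e : Fin Fr.n → (Fin Fr.n → R₀) := fun i => Pi.single i 1
  let Pq : (G' → Qb) →ₗ[Qb] (G' → Qb) := bb.constr Qb fun i => Φ (P (e i))
  have hPq : ∀ i, Pq (Fr.vec i) = Φ (P (e i)) := fun i => by
    rw [← hbb, Module.Basis.constr_basis]
  have hPqΦ : ∀ c, Pq (Φ c) = Φ (P c) := by
    intro c
    have h1 : (Pq.restrictScalars R₀).comp Φ = Φ.comp P := LinearMap.pi_ext' fun i => by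
      refine LinearMap.ext_ring ?_
      change Pq (Φ (Pi.single i 1)) = Φ (P (Pi.single i 1))
      rw [show Φ (Pi.single i 1) = Fr.vec i by
        simp [Φ, Fintype.linearCombination_apply_single], hPq]
    exact LinearMap.congr_fun h1 c
  -- averaging over the kernel
  let K : Finset G' := Finset.univ.filter fun k => q k = 0
  have hK : ∀ k, k ∈ K ↔ q k = 0 := fun k => by simp [K]
  have hKne : (K.card : Qb) ≠ 0 :=
    Nat.cast_ne_zero.2 (Finset.card_ne_zero.2 ⟨0, (hK 0).2 (map_zero q)⟩)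
  let av : (G' → Qb) →ₗ[Qb] (G' → Qb) :=
    { toFun := fun u x => ∑ k ∈ K, u (x + k)
      map_add' := fun u v => funext fun x => by simp [Finset.sum_add_distrib]
      map_smul' := fun a u => funext fun x => by simp [Finset.mul_sum] }
  have havinv : ∀ u, av u ∈ Inv := by
    intro u x k hk
    change ∑ j ∈ K, u (x + k + j) = ∑ j ∈ K, u (x + j)
    refine Finset.sum_bij' (fun j _ => k + j) (fun j _ => -k + j) ?_ ?_ ?_ ?_ ?_
    · intro j hj; rw [hK, map_add, hk, (hK j).1 hj, add_zero]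
    · intro j hj; rw [hK, map_add, map_neg, hk, (hK j).1 hj, neg_zero, add_zero]
    · intro j _; simp
    · intro j _; simp
    · intro j _; rw [add_assoc]
  have havfix : ∀ (σ : GalQ) u, conjF σ u = u → conjF σ (av u) = av u := by
    intro σ u hu
    funext x
    change σ (∑ k ∈ K, u (σ⁻¹ • x + k)) = ∑ k ∈ K, u (x + k)
    rw [map_sum]
    refine Finset.sum_bij' (fun j _ => σ • j) (fun j _ => σ⁻¹ • j) ?_ ?_ ?_ ?_ ?_
    · intro j hj; rw [hK, hqσ, (hK j).1 hj, smul_zero]
    · intro j hj; rw [hK, hqσ, (hK j).1 hj, smul_zero]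
    · intro j _; simp
    · intro j _; simp
    · intro j _
      conv_rhs => rw [← hu]
      rw [conjF_apply, smul_add, inv_smul_smul]
  have havvec : ∀ i, ∃ c, av (Fr.vec i) = Φ c := by
    intro i
    have hmem := Fr.comul (Fr.vec i) (by
      rw [← Subalgebra.mem_toSubmodule, ← Fr.span_eq]; exact Submodule.subset_span ⟨i, rfl⟩)
    rw [Submodule.mem_span_range_iff_exists_fun] at hmem
    obtain ⟨a, ha⟩ := hmem
    let s : Fin Fr.n → Qb := fun j => ∑ k ∈ K, ∑ l, (a (j, l) : Qb) * Fr.vec l k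
    have hs : ∀ j, s j ∈ A := fun j => sum_mem fun k _ => sum_mem fun l _ => mul_mem (a (j, l)).2
      (Fr.val _ (by rw [← Subalgebra.mem_toSubmodule, ← Fr.span_eq]
                    exact Submodule.subset_span ⟨l, rfl⟩) k)
    have hav : av (Fr.vec i) = ∑ j, s j • Fr.vec j := by
      funext x
      change ∑ k ∈ K, Fr.vec i (x + k) = _
      simp only [Finset.sum_apply, Pi.smul_apply, smul_eq_mul, s, Finset.sum_mul]
      rw [Finset.sum_comm]
      refine Finset.sum_congr rfl fun k _ => ?_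
      have h := congrFun ha (x, k)
      simp only [Finset.sum_apply, Pi.smul_apply, smul_eq_coe_smul, smul_eq_mul,
        Fintype.sum_prod_type] at h
      rw [← h]
      exact Finset.sum_congr rfl fun j _ => Finset.sum_congr rfl fun l _ => by ring
    have hsfix : ∀ j (σ : GalQ), σ (s j) = s j := by
      intro j σ
      have h := havfix σ _ (Fr.fixed i σ)
      rw [hav, ← conjHom_apply, map_sum] at h
      simp only [conjHom_apply, conjF_smul, Fr.fixed] at h
      have h0 : ∑ j, (σ (s j) - s j) • Fr.vec j = 0 := by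
        simp only [sub_smul, Finset.sum_sub_distrib, h, sub_self]
      exact sub_eq_zero.1 (Fintype.linearIndependent_iff.1 Fr.indep _ h0 j)
    choose r hr using fun j => exists_R_of_fixed hA (hs j) (hsfix j)
    exact ⟨r, by rw [hav, hΦ]; simp only [hr]⟩
  have hinvfix : ∀ u ∈ Inv, Pq u = u := by
    intro u hu
    have h1 : av u = (K.card : Qb) • u := by
      funext x
      change ∑ k ∈ K, u (x + k) = _
      rw [Finset.sum_congr rfl fun k hk => hu x k ((hK k).1 hk), Finset.sum_const, nsmul_eq_mul]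
      rfl
    have h2 : Pq.comp av = av := bb.ext fun i => by
      obtain ⟨c, hc⟩ := havvec i
      rw [LinearMap.comp_apply, hbb, hc, hPqΦ, hPfix c ?_]
      show Φ c ∈ Inv
      rw [← hc]
      exact havinv _
    have h3 := LinearMap.congr_fun h2 u
    rw [LinearMap.comp_apply, h1, map_smul] at h3
    exact smul_right_injective (G' → Qb) hKne h3
  -- the generators
  let sec : G → G' := Function.surjInv hq
  have hsec : ∀ y, q (sec y) = y := Function.surjInv_eq hq
  let h : Fin Fr.n → (G → Qb) := fun i y => Φ (P (e i)) (sec y)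
  have hh : ∀ i x, h i (q x) = Φ (P (e i)) x := by
    intro i x
    have hk : q (sec (q x) - x) = 0 := by rw [map_sub, hsec, sub_self]
    have := hPN (e i) x (sec (q x) - x) hk
    rwa [add_sub_cancel] at this
  have hPqh : ∀ i x, Pq (Fr.vec i) x = h i (q x) := fun i x => by rw [hPq, hh]
  refine ⟨⟨Set.range h, Set.finite_range h, ?_, ?_, ?_, ?_⟩⟩
  · rintro _ ⟨i, rfl⟩ y
    exact Fr.val _ (hΦmem _) _
  · rintro σ - _ ⟨i, rfl⟩
    funext y
    obtain ⟨x, rfl⟩ := hq y
    rw [conjF_apply, ← hqσ, hh, hh, ← conjF_apply, hΦfix]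
  · intro y₁ y₂ hy
    obtain ⟨x₁, rfl⟩ := hq y₁
    obtain ⟨x₂, rfl⟩ := hq y₂
    by_contra hne
    let u : G' → Qb := fun x => if q x = q x₁ then 1 else 0
    have hu : u ∈ Inv := fun x k hk => by simp [u, hk]
    have h1 : ∀ x, u x = ∑ i, bb.repr u i * h i (q x) := fun x => by
      conv_lhs => rw [← hinvfix u hu, ← bb.sum_repr u, map_sum]
      simp only [map_smul, Finset.sum_apply, Pi.smul_apply, smul_eq_mul, hbb, hPqh]
    have h2 : u x₁ = u x₂ := by
      rw [h1, h1]
      exact Finset.sum_congr rfl fun i _ => by rw [hy (h i) ⟨i, rfl⟩]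
    simp [u, Ne.symm hne] at h2
  · rintro _ ⟨i, rfl⟩
    have hmem := Fr.comul _ (hΦmem (P (e i)))
    rw [Submodule.mem_span_range_iff_exists_fun] at hmem
    obtain ⟨a, ha⟩ := hmem
    have ha' : ∀ x y, h i (q x + q y) =
        ∑ j, ∑ l, (a (j, l) : Qb) * (Fr.vec j x * Fr.vec l y) := fun x y => by
      rw [← map_add, hh]
      have h := congrFun ha (x, y)
      simp only [Finset.sum_apply, Pi.smul_apply, smul_eq_coe_smul, smul_eq_mul,
        Fintype.sum_prod_type] at h
      exact h.symm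
    have step1 : ∀ x y, h i (q x + q y) =
        ∑ j, ∑ l, (a (j, l) : Qb) * (h j (q x) * Fr.vec l y) := by
      intro x y
      set u : G' → Qb := fun x' => h i (q x' + q y) with hu
      have huI : u ∈ Inv := fun x' k hk => by simp [u, hk]
      have hue : u = ∑ j, (∑ l, (a (j, l) : Qb) * Fr.vec l y) • Fr.vec j := by
        funext x'
        simp only [u, ha', Finset.sum_apply, Pi.smul_apply, smul_eq_mul, Finset.sum_mul]
        exact Finset.sum_congr rfl fun j _ => Finset.sum_congr rfl fun l _ => by ring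
      change u x = _
      rw [← hinvfix u huI, hue, map_sum, Finset.sum_apply]
      refine Finset.sum_congr rfl fun j _ => ?_
      rw [map_smul, Pi.smul_apply, smul_eq_mul, hPqh, Finset.sum_mul]
      exact Finset.sum_congr rfl fun l _ => by ring
    have step2 : ∀ x y, h i (q x + q y) =
        ∑ j, ∑ l, (a (j, l) : Qb) * (h j (q x) * h l (q y)) := by
      intro x y
      set u : G' → Qb := fun y' => h i (q x + q y') with hu
      have huI : u ∈ Inv := fun x' k hk => by simp [u, hk]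
      have hue : u = ∑ l, (∑ j, (a (j, l) : Qb) * h j (q x)) • Fr.vec l := by
        funext y'
        simp only [u, step1, Finset.sum_apply, Pi.smul_apply, smul_eq_mul, Finset.sum_mul]
        rw [Finset.sum_comm]
        exact Finset.sum_congr rfl fun j _ => Finset.sum_congr rfl fun l _ => by ring
      change u y = _
      rw [← hinvfix u huI, hue, map_sum, Finset.sum_apply, Finset.sum_comm]
      refine Finset.sum_congr rfl fun l _ => ?_
      rw [map_smul, Pi.smul_apply, smul_eq_mul, hPqh, Finset.sum_mul]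
      exact Finset.sum_congr rfl fun j _ => by ring
    have e1 : (fun z : G × G => h i (z.1 + z.2)) =
        ∑ j, ∑ l, a (j, l) • (fun z : G × G => h j z.1 * h l z.2) := by
      funext z
      obtain ⟨x, hx⟩ := hq z.1
      obtain ⟨y, hy⟩ := hq z.2
      rw [← hx, ← hy, step2]
      simp only [Finset.sum_apply, Pi.smul_apply, smul_eq_coe_smul, smul_eq_mul, ← hx, ← hy]
    rw [e1]
    exact sum_mem fun j _ => sum_mem fun l _ => Submodule.smul_mem _ _ (Submodule.subset_span
      ⟨h j, Algebra.subset_adjoin ⟨j, rfl⟩, h l, Algebra.subset_adjoin ⟨l, rfl⟩, rfl⟩)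

end FLTAgent.FlatDatum

end
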