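import Fermat.Agent.FlatDatum.Trace
import Fermat.Agent.FlatDatum.Quotient
import Fermat.Agent.Flat.API
import Fermat.Agent.Alg.Frobenius
import Fermat.Prelude.Def_GaloisRep_Flat

/-!
A Hecke–Galois datum is flat at `p ∤ N`: for an ideal `I` of finite index, `G = V/IV` is a quotient
of a Galois submodule of a power of `J₀(N)[n]`, `n` a large power of `p`.
-/

set_option autoImplicit false
set_option linter.style.haveILetI false
set_option linter.unusedSectionVars false

noncomputable section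

namespace FLTAgent.FlatDatum

open IsLocalRing ModularCurve FLTAgent.Flat

section

variable {X : Type} [AddCommGroup X] [DistribMulAction GalQ X]

/-- the action of `ℤ[Gal]` evaluated at a point -/
def evAt (x : X) : (GalQ →₀ ℤ) →+ X := Finsupp.liftAddHom fun σ => zmultiplesHom X (σ • x)

theorem evAt_eq_sum (x : X) (c : GalQ →₀ ℤ) :
    evAt x c = ∑ σ : c.support, c σ.1 • σ.1 • x := by
  rw [evAt, Finsupp.liftAddHom_apply, Finsupp.sum, ← Finset.sum_coe_sort]
  rfl

theorem evAt_single (x : X) (σ : GalQ) (a : ℤ) : evAt x (Finsupp.single σ a) = a • σ • x := by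
  simp [evAt]

theorem smul_evAt (σ : GalQ) (x : X) (c : GalQ →₀ ℤ) :
    σ • evAt x c = evAt x (Finsupp.mapDomain (σ * ·) c) := by
  induction c using Finsupp.induction_linear with
  | zero => simp
  | add a b ha hb => rw [map_add, smul_add, Finsupp.mapDomain_add, map_add, ha, hb]
  | single τ a =>
    rw [Finsupp.mapDomain_single, evAt_single, evAt_single, mul_smul]
    exact map_zsmul (DistribSMul.toAddMonoidHom X σ) a _

end

section

variable {N : ℕ} [NeZero N] (n : ℕ)

/-- `J₀(N)[n]` -/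
def torJ (N : ℕ) [NeZero N] (n : ℕ) : AddSubgroup (JZero N) :=
  (nsmulAddMonoidHom (α := JZero N) n).ker

theorem mem_torJ {x : JZero N} : x ∈ torJ N n ↔ n • x = 0 := Iff.rfl

theorem smul_mem_torJ (σ : GalQ) {x : JZero N} (hx : x ∈ torJ N n) : σ • x ∈ torJ N n := by
  rw [mem_torJ] at hx ⊢
  have h : σ • (n • x) = n • (σ • x) := map_nsmul (DistribSMul.toAddMonoidHom (JZero N) σ) n x
  rw [← h, hx]
  exact map_zero (DistribSMul.toAddMonoidHom (JZero N) σ)

instance instSMulTorJ : SMul GalQ (torJ N n) :=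
  ⟨fun σ x => ⟨σ • (x : JZero N), smul_mem_torJ n σ x.2⟩⟩

theorem coe_smul_torJ (σ : GalQ) (x : torJ N n) : ((σ • x : torJ N n) : JZero N) = σ • (x : JZero N) :=
  rfl

instance instActTorJ : DistribMulAction GalQ (torJ N n) where
  one_smul x := Subtype.ext (one_smul GalQ (x : JZero N))
  mul_smul σ τ x := Subtype.ext (mul_smul σ τ (x : JZero N))
  smul_zero σ := Subtype.ext (smul_zero σ)
  smul_add σ x y := Subtype.ext (smul_add σ (x : JZero N) (y : JZero N))

end

section

variable {X G : Type} [AddCommGroup X] [DistribMulAction GalQ X] [AddCommGroup G] [Fintype G]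
  [DistribMulAction GalQ G]

/-- `u ↦ ((e, x) ↦ u_e • x)` -/
def evFam : (G → GalQ →₀ ℤ) →+ (G × X → X) where
  toFun u i := evAt i.2 (u i.1)
  map_zero' := funext fun i => by simp
  map_add' u v := funext fun i => by simp

/-- the Galois submodule of `X ^ (G × X)` covering `G` -/
def srcMod (X G : Type) [AddCommGroup X] [DistribMulAction GalQ X] [AddCommGroup G] [Fintype G]
    [DistribMulAction GalQ G] : AddSubgroup (G × X → X) :=
  (evFam (X := X) (G := G)).range

theorem smul_mem_srcMod (σ : GalQ) {w : G × X → X} (hw : w ∈ srcMod X G) : σ • w ∈ srcMod X G := by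
  obtain ⟨u, rfl⟩ := hw
  exact ⟨fun e => Finsupp.mapDomain (σ * ·) (u e), funext fun i => (smul_evAt σ _ _).symm⟩

instance instSMulSrcMod : SMul GalQ (srcMod X G) :=
  ⟨fun σ w => ⟨σ • (w : G × X → X), smul_mem_srcMod σ w.2⟩⟩

instance instActSrcMod : DistribMulAction GalQ (srcMod X G) where
  one_smul w := Subtype.ext (one_smul GalQ (w : G × X → X))
  mul_smul σ τ w := Subtype.ext (mul_smul σ τ (w : G × X → X))
  smul_zero σ := Subtype.ext (smul_zero σ)
  smul_add σ w v := Subtype.ext (smul_add σ (w : G × X → X) (v : G × X → X))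

/-- the coordinates -/
def srcProj (i : G × X) : srcMod X G →+ X where
  toFun w := (w : G × X → X) i
  map_zero' := rfl
  map_add' _ _ := rfl

theorem srcProj_injective (c d : srcMod X G) (h : ∀ i, srcProj i c = srcProj i d) : c = d :=
  Subtype.ext (funext h)

theorem srcMod_continuous [Finite X] (hX : IsContinuousModule X) :
    IsContinuousModule (srcMod X G) := by
  intro w
  choose L hL hfix using hX
  haveI : ∀ x, FiniteDimensional ℚ (L x) := hL
  exact ⟨⨆ x, L x, inferInstance, fun σ hσ =>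
    Subtype.ext (funext fun i => hfix _ σ fun y hy => hσ y (le_iSup L _ hy))⟩

theorem exists_surjection (hann : ∀ c : GalQ →₀ ℤ, (∀ x : X, evAt x c = 0) → ∀ e : G, evAt e c = 0) :
    ∃ q : srcMod X G →+ G, Function.Surjective q ∧ ∀ (σ : GalQ) w, q (σ • w) = σ • q w := by
  classical
  let q₀ : (G → GalQ →₀ ℤ) →+ G :=
    { toFun := fun u => ∑ e, evAt e (u e)
      map_zero' := by simp
      map_add' := fun u v => by simp [Finset.sum_add_distrib] }
  have hq₀ : ∀ u v, evFam (X := X) u = evFam v → q₀ u = q₀ v := by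
    intro u v h
    rw [← sub_eq_zero, ← map_sub]
    refine Finset.sum_eq_zero fun e _ => hann _ (fun x => ?_) e
    have h' : evFam (X := X) (u - v) = 0 := by rw [map_sub, h, sub_self]
    exact congrFun h' (e, x)
  let sec : srcMod X G → (G → GalQ →₀ ℤ) := fun w => w.2.choose
  have hsec : ∀ w : srcMod X G, evFam (sec w) = (w : G × X → X) := fun w => w.2.choose_spec
  refine ⟨AddMonoidHom.mk' (fun w => q₀ (sec w)) fun w v => ?_, fun e => ?_, fun σ w => ?_⟩
  · rw [← map_add]
    exact hq₀ _ _ (by rw [map_add, hsec, hsec, hsec]; rfl)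
  · refine ⟨⟨evFam (Pi.single e (Finsupp.single 1 1)), _, rfl⟩, ?_⟩
    change q₀ (sec _) = e
    rw [hq₀ _ (Pi.single e (Finsupp.single 1 1)) (hsec _)]
    change ∑ e', evAt e' ((Pi.single e (Finsupp.single 1 1) : G → GalQ →₀ ℤ) e') = e
    rw [Finset.sum_eq_single e (fun e' _ he => by rw [Pi.single_eq_of_ne he, map_zero])
      (fun h => absurd (Finset.mem_univ e) h), Pi.single_eq_same, evAt_single, one_smul, one_smul]
  · have h : evFam (fun e => Finsupp.mapDomain (σ * ·) (sec w e)) = evFam (X := X) (sec (σ • w)) := by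
      rw [hsec]
      funext i
      change evAt i.2 (Finsupp.mapDomain (σ * ·) (sec w i.1)) = σ • ((w : G × X → X) i)
      rw [← smul_evAt]
      exact congrArg (σ • ·) (congrFun (hsec w) i)
    change q₀ (sec (σ • w)) = σ • q₀ (sec w)
    rw [← hq₀ _ _ h]
    change ∑ e, evAt e (Finsupp.mapDomain (σ * ·) (sec w e)) = σ • ∑ e, evAt e (sec w e)
    rw [Finset.smul_sum]
    exact Finset.sum_congr rfl fun e _ => (smul_evAt σ _ _).symm

/-- quotients of submodules of powers keep local models -/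
theorem hasFlatModel_of_subquotient [Finite X] (hX : IsContinuousModule X)
    (hG : IsContinuousModule G) {p : ℕ} [Fact p.Prime] {A : ValuationSubring Qb}
    (hA : A.LiesOverPrime p) (R₁ : RawModel X A)
    (hann : ∀ c : GalQ →₀ ℤ, (∀ x : X, evAt x c = 0) → ∀ e : G, evAt e c = 0) :
    HasFlatModel G p := by
  haveI : Finite (srcMod X G) :=
    Finite.of_injective (fun w i => srcProj i w) fun c d h => srcProj_injective c d (congrFun h)
  obtain ⟨R₂⟩ := rawModel_pullback (G' := srcMod X G) srcProj (fun i σ c => rfl) srcProj_injective R₁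
  obtain ⟨Fr⟩ := exists_frame (srcMod_continuous hX) hA R₂
  obtain ⟨q, hq, hqσ⟩ := exists_surjection hann
  obtain ⟨R₃⟩ := rawModel_quotient hA Fr q hq hqσ
  exact hasFlatModel_of_rawModel hG hA R₃

end

/-- A finite module on which everything killing `J₀(N)[n]` acts as zero has a flat model. -/
theorem hasFlatModel_of_annihilator {N : ℕ} [NeZero N] (GI : FLTAgent.Attach.GaloisInputs N)
    {p : ℕ} [Fact p.Prime] (hpN : ¬ p ∣ N) {n : ℕ} (hn : 0 < n)
    (G : Type) [AddCommGroup G] [Finite G] [DistribMulAction GalQ G] (hG : IsContinuousModule G)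
    (hann : ∀ c : GalQ →₀ ℤ, (∀ x : JZero N, n • x = 0 → evAt x c = 0) → ∀ e : G, evAt e c = 0) :
    HasFlatModel G p := by
  obtain ⟨A, -, hA, -⟩ := FLTAgent.Alg.exists_place_frobenius p (Fact.out : p.Prime)
  haveI : Finite (torJ N n) := ((finite_torsion (N := N) n hn).subset fun x hx => hx).to_subtype
  haveI : Fintype G := Fintype.ofFinite G
  obtain ⟨R₁⟩ := exists_rawModel N (Fact.out : p.Prime) hpN hA (torJ N n)
    (torJ N n).subtype Subtype.val_injective fun σ c => rfl
  have hX : IsContinuousModule (torJ N n) := fun c => by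
    obtain ⟨L, hL, hfix⟩ := GI.exists_level (c : JZero N)
    exact ⟨L, hL, fun σ hσ => Subtype.ext (hfix σ hσ)⟩
  refine hasFlatModel_of_subquotient hX hG hA R₁ fun c hc => hann c fun x hx => ?_
  have h := congrArg Subtype.val (hc ⟨x, hx⟩)
  rw [evAt_eq_sum, AddSubgroup.val_finsetSum] at h
  rw [evAt_eq_sum]
  exact (Finset.sum_congr rfl fun σ _ => rfl).trans h

theorem exists_pow_le_of_finite {T : Type} [CommRing T] [IsLocalRing T] [IsNoetherianRing T]
    (I : Ideal T) [Finite (T ⧸ I)] : ∃ M : ℕ, maximalIdeal T ^ M ≤ I := by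
  obtain ⟨i, j, hij, h⟩ := Finite.exists_ne_map_eq_of_infinite
    fun M : ℕ => (((maximalIdeal T ^ M).map (Ideal.Quotient.mk I) : Ideal (T ⧸ I)) : Set (T ⧸ I))
  wlog hlt : i < j generalizing i j
  · exact this j i hij.symm h.symm (by omega)
  refine ⟨i, Submodule.le_of_le_smul_of_le_jacobson_bot (I := maximalIdeal T)
    (IsNoetherian.noetherian _) (maximalIdeal_le_jacobson ⊥) ?_⟩
  intro x hx
  have hx' : Ideal.Quotient.mk I x ∈ (maximalIdeal T ^ j).map (Ideal.Quotient.mk I) :=
    (SetLike.coe_injective h) ▸ Ideal.mem_map_of_mem _ hx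
  obtain ⟨y, hy, hyx⟩ := (Ideal.mem_map_iff_of_surjective _ Ideal.Quotient.mk_surjective).1 hx'
  have hy' : y ∈ maximalIdeal T • maximalIdeal T ^ i := by
    rw [smul_eq_mul, ← pow_succ']
    exact Ideal.pow_le_pow_right hlt hy
  rw [← sub_add_cancel x y]
  exact Submodule.add_mem_sup (Ideal.Quotient.eq.1 hyx.symm) hy'

variable {N : ℕ} [NeZero N] {S : Finset ℕ} {𝒪 : Type} [CommRing 𝒪] [IsDomain 𝒪]
  [IsDiscreteValuationRing 𝒪]
  [IsAdicComplete (maximalIdeal 𝒪) 𝒪]
  {θ : CuspForm.heckeAlgebra N 2 (↑S : Set ℕ) →+* ResidueField 𝒪}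
  {T : Type} [CommRing T] [IsLocalRing T] [IsNoetherianRing T]
  [IsAdicComplete (maximalIdeal T) T] [Algebra 𝒪 T] [IsLocalHom (algebraMap 𝒪 T)]
  [Module.Finite 𝒪 T] [Module.Free 𝒪 T]

theorem isFlatAt_datum (D : FLTAgent.Attach.HeckeLattice N) (GI : FLTAgent.Attach.GaloisInputs N)
    [Finite (ResidueField 𝒪)] {p : ℕ} (hp : p.Prime) (hp𝒪 : (p : 𝒪) ∈ maximalIdeal 𝒪)
    (hpN : ¬ p ∣ N) (hpS : p ∈ S) (hNS : ∀ q : ℕ, q.Prime → q ∣ N → q ∈ S)
    (H : CuspForm.HeckeGaloisRepDatum N (↑S : Set ℕ) 𝒪 θ T) : H.ρ.IsFlatAt p := by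
  haveI : Fact p.Prime := ⟨hp⟩
  refine ⟨Finite.of_surjective (IsLocalRing.ResidueField.map (algebraMap 𝒪 T)) fun z => ?_, ?_⟩
  · obtain ⟨a, rfl⟩ := H.residue_surjective z
    exact ⟨residue 𝒪 a, ResidueField.map_residue _ _⟩
  intro I hI
  obtain ⟨M, hM⟩ := exists_pow_le_of_finite I
  obtain ⟨n, hn, hbound⟩ := exists_annihilator_bound D GI hp hp𝒪 hpS hNS H M
  set G := H.ρ.V ⧸ (I • (⊤ : Submodule T H.ρ.V))
  haveI : Finite G := Module.finite_of_finite (T ⧸ I)
  have hlev : ∀ (σ : GalQ) (v : H.ρ.V),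
      H.ρ.levelAction I σ (Submodule.Quotient.mk v) = Submodule.Quotient.mk (H.ρ.ρ σ v) :=
    fun σ v => rfl
  letI : SMul GalQ G := ⟨fun σ e => H.ρ.levelAction I σ e⟩
  letI : DistribMulAction GalQ G :=
    { one_smul := fun e => by
        obtain ⟨v, rfl⟩ := Submodule.Quotient.mk_surjective _ e
        change H.ρ.levelAction I 1 _ = _
        rw [hlev, map_one, Module.End.one_apply]
      mul_smul := fun σ τ e => by
        obtain ⟨v, rfl⟩ := Submodule.Quotient.mk_surjective _ e
        change H.ρ.levelAction I (σ * τ) _ = H.ρ.levelAction I σ (H.ρ.levelAction I τ _)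
        rw [hlev, hlev, hlev, map_mul, Module.End.mul_apply]
      smul_zero := fun σ => map_zero _
      smul_add := fun σ => map_add _ }
  have hG : IsContinuousModule G := by
    intro e
    obtain ⟨L, hL, hfix⟩ := H.ρ.isAdicContinuous M
    refine ⟨L, hL, fun σ hσ => ?_⟩
    obtain ⟨v, rfl⟩ := Submodule.Quotient.mk_surjective _ e
    change H.ρ.levelAction I σ _ = _
    rw [hlev, Submodule.Quotient.eq]
    exact Submodule.smul_mono hM le_rfl (hfix σ hσ v)
  refine hasFlatModel_of_annihilator GI hpN hn G hG fun c hc e => ?_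
  obtain ⟨v, rfl⟩ := Submodule.Quotient.mk_surjective _ e
  have hv := hbound (fun σ : c.support => c σ.1) (fun σ => σ.1)
    (fun x hx => (evAt_eq_sum x c).symm.trans (hc x hx)) v
  rw [evAt_eq_sum]
  have : ∑ σ : c.support, c σ.1 • σ.1 • (Submodule.Quotient.mk v : G) =
      (I • (⊤ : Submodule T H.ρ.V)).mkQ (∑ σ : c.support, c σ.1 • H.ρ.ρ σ.1 v) := by
    rw [map_sum]
    exact Finset.sum_congr rfl fun σ _ => by rw [map_zsmul]; rfl
  rw [this, Submodule.mkQ_apply, Submodule.Quotient.mk_eq_zero]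
  exact Submodule.smul_mono hM le_rfl hv

end FLTAgent.FlatDatum

end
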