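import Fermat.Agent.Attach.Unramified

/-!
If an element of `ℤ[Gal]` kills the `p^(M+e)`-torsion of `J₀(N)`, then it acts on a Hecke–Galois
datum as `0` modulo `m^M`.  With `twist σ = σ + c(σ) σ⁻¹ = t_σ` on torsion: if `∑ aᵢ gᵢ` kills the
torsion, then `R = ∑ aᵢ c(gᵢ) gᵢ⁻¹` is the Hecke operator `y = ∑ aᵢ t(gᵢ)`, and the same for all
translates shows `R (μ ν) = R (ν μ)`, so `y (t(aμν) - t(aνμ)) = 0`; one such difference of traces
is a unit by residual absolute irreducibility.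
-/

set_option autoImplicit false
set_option linter.style.haveILetI false
set_option linter.unusedSectionVars false

noncomputable section

namespace FLTAgent.FlatDatum

open IsLocalRing ModularCurve FLTAgent.Attach

theorem nsmul_mod_of_eq_zero {X : Type*} [AddCommGroup X] {n : ℕ} {y : X} (hy : n • y = 0) (k : ℕ) :
    (k % n) • y = k • y := by
  conv_rhs => rw [← Nat.mod_add_div k n, add_nsmul, mul_comm, mul_nsmul', hy, smul_zero, add_zero]

theorem val_mul_nsmul {X : Type*} [AddCommGroup X] {n : ℕ} [NeZero n] {y : X} (hy : n • y = 0)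
    (a b : ZMod n) : (a * b).val • y = a.val • b.val • y := by
  rw [ZMod.val_mul, nsmul_mod_of_eq_zero hy, mul_nsmul']

theorem smul_sum_zsmul {Γ : Type*} [Monoid Γ] {X : Type*} [AddCommGroup X] [DistribMulAction Γ X]
    {ι : Type*} [Fintype ι] (σ : Γ) (a : ι → ℤ) (y : ι → X) :
    σ • ∑ i, a i • y i = ∑ i, a i • σ • y i := by
  rw [Finset.smul_sum]
  exact Finset.sum_congr rfl fun i _ => map_zsmul (DistribSMul.toAddMonoidHom X σ) (a i) (y i)

theorem val_one_nsmul {X : Type*} [AddCommGroup X] {n : ℕ} [NeZero n] {y : X} (hy : n • y = 0) :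
    (1 : ZMod n).val • y = y := by
  rw [← Nat.cast_one, ZMod.val_natCast, nsmul_mod_of_eq_zero hy, one_nsmul]

theorem twist_swap {X : Type*} [AddCommGroup X] [DistribMulAction GalQ X] {n : ℕ} [NeZero n]
    (R : X →+ X) (htor : ∀ (σ : GalQ) {x : X}, n • x = 0 → n • (σ • x) = 0)
    (hR : ∀ (ν : GalQ) {x : X}, n • x = 0 → R (ν • x) = ν • R x)
    (hswap : ∀ (μ ν : GalQ) {x : X}, n • x = 0 → R (μ • ν • x) = R (ν • μ • x))
    (χ : GalQ → ZMod n) (hχ : ∀ σ τ, χ (σ * τ) = χ σ * χ τ) (α μ ν : GalQ) {x : X}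
    (hx : n • x = 0) :
    R ((α * (μ * ν)) • x + (χ (α * (μ * ν))).val • ((α * (μ * ν))⁻¹ • x)) =
      R ((α * (ν * μ)) • x + (χ (α * (ν * μ))).val • ((α * (ν * μ))⁻¹ • x)) := by
  rw [map_add, map_add, map_nsmul, map_nsmul, hχ, hχ, hχ, hχ, mul_comm (χ μ) (χ ν)]
  congr 1
  · simp only [mul_smul]
    rw [hR α (htor μ (htor ν hx)), hR α (htor ν (htor μ hx)), hswap μ ν hx]
  · congr 1
    simp only [mul_inv_rev, mul_smul]
    rw [hswap _ _ (htor _ hx)]

section

variable {T : Type} [CommRing T] [IsLocalRing T]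

theorem mem_smul_top_of_trace_mem (ρ : GaloisRepAdic T)
    (habs : ρ.residual.IsAbsolutelyIrreducible) (J : Ideal T) (x : Module.End T ρ.V)
    (h : ∀ σ, LinearMap.trace T ρ.V (ρ.ρ σ * x) ∈ J) (v : ρ.V) :
    x v ∈ J • (⊤ : Submodule T ρ.V) := by
  classical
  obtain ⟨r, hr⟩ := FLTAgent.Deform.exists_repMat ρ
  have htop := FLTAgent.Deform.span_range_eq_top ρ.residual habs
    (FLTAgent.Deform.repMat_residual hr)
  obtain ⟨b, hb⟩ := hr
  have hspan : Submodule.span T (Set.range r) = ⊤ := by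
    rw [eq_top_iff]
    refine Submodule.le_of_le_smul_of_le_jacobson_bot Module.Finite.fg_top
      (maximalIdeal_le_jacobson ⊥) fun Y _ => ?_
    obtain ⟨l, hl⟩ := Finsupp.mem_span_range_iff_exists_finsupp.mp
      (show Y.map (residue T) ∈
        Submodule.span (ResidueField T) (Set.range fun σ => (r σ).map (residue T)) from
          htop ▸ Submodule.mem_top)
    choose s hs using fun σ => residue_surjective (l σ)
    set Z := ∑ σ ∈ l.support, s σ • r σ
    have hZ : Z.map (residue T) = Y.map (residue T) := by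
      rw [← hl, Finsupp.sum]
      ext i j
      simp [Z, Matrix.sum_apply, map_sum, hs]
    rw [← add_sub_cancel Z Y]
    refine Submodule.add_mem_sup (sum_mem fun σ _ => Submodule.smul_mem _ _
      (Submodule.subset_span ⟨σ, rfl⟩)) ?_
    rw [Matrix.matrix_eq_sum_single (Y - Z)]
    refine sum_mem fun i _ => sum_mem fun j _ => ?_
    rw [← mul_one ((Y - Z) i j), ← smul_eq_mul, ← Matrix.smul_single]
    refine Submodule.smul_mem_smul ?_ Submodule.mem_top
    rw [← residue_eq_zero_iff, Matrix.sub_apply, map_sub, sub_eq_zero]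
    exact (congrFun (congrFun hZ i) j).symm
  set X₀ := LinearMap.toMatrix b b x with hX₀
  let φ : Matrix (Fin 2) (Fin 2) T →ₗ[T] T :=
    (Matrix.traceLinearMap (Fin 2) T T).comp (LinearMap.mulRight T X₀)
  have hφ : ∀ Y, φ Y ∈ J := by
    intro Y
    have hY : Y ∈ Submodule.span T (Set.range r) := hspan ▸ Submodule.mem_top
    induction hY using Submodule.span_induction with
    | mem Y hY =>
      obtain ⟨σ, rfl⟩ := hY
      change Matrix.trace (r σ * X₀) ∈ J
      rw [← hb, hX₀, ← LinearMap.toMatrix_mul, ← LinearMap.trace_eq_matrix_trace T b]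
      exact h σ
    | zero => rw [map_zero]; exact J.zero_mem
    | add a c _ _ ha hc => rw [map_add]; exact J.add_mem ha hc
    | smul c a _ ha => rw [map_smul]; exact J.mul_mem_left c ha
  have hentry : ∀ i j, X₀ i j ∈ J := by
    intro i j
    have := hφ (Matrix.single j i 1)
    simpa [φ, Matrix.trace_single_mul] using this
  rw [← b.sum_repr (x v)]
  refine sum_mem fun i _ => Submodule.smul_mem_smul ?_ Submodule.mem_top
  rw [← LinearMap.toMatrix_mulVec_repr b b x v, Matrix.mulVec, dotProduct]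
  exact sum_mem fun j _ => J.mul_mem_right _ (hentry i j)

theorem exists_trace_commutator_unit (ρ : GaloisRepAdic T)
    (habs : ρ.residual.IsAbsolutelyIrreducible) :
    ∃ a μ ν : GalQ, IsUnit (LinearMap.trace T ρ.V (ρ.ρ (a * (μ * ν))) -
      LinearMap.trace T ρ.V (ρ.ρ (a * (ν * μ)))) := by
  classical
  obtain ⟨r, hr⟩ := FLTAgent.Deform.exists_repMat ρ
  have htop := FLTAgent.Deform.span_range_eq_top ρ.residual habs
    (FLTAgent.Deform.repMat_residual hr)
  have hmul := FLTAgent.Deform.RepMat.map_mul hr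
  obtain ⟨b, hb⟩ := hr
  by_contra hcon
  push Not at hcon
  set q : GalQ → Matrix (Fin 2) (Fin 2) (ResidueField T) := fun σ => (r σ).map (residue T) with hq
  have hqmul : ∀ σ τ, q (σ * τ) = q σ * q τ := fun σ τ => by
    simp only [hq, hmul, Matrix.map_mul]
  have htr : ∀ σ, residue T (LinearMap.trace T ρ.V (ρ.ρ σ)) = Matrix.trace (q σ) := fun σ => by
    rw [LinearMap.trace_eq_matrix_trace T b, hb, hq]
    simp [Matrix.trace]
  have hC : ∀ μ ν, q μ * q ν = q ν * q μ := by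
    intro μ ν
    have h0 : ∀ Y : Matrix (Fin 2) (Fin 2) (ResidueField T),
        Matrix.trace (Y * (q μ * q ν - q ν * q μ)) = 0 := by
      intro Y
      have hY : Y ∈ Submodule.span (ResidueField T) (Set.range q) := htop ▸ Submodule.mem_top
      induction hY using Submodule.span_induction with
      | mem Y hY =>
        obtain ⟨a, rfl⟩ := hY
        have h1 : LinearMap.trace T ρ.V (ρ.ρ (a * (μ * ν))) -
            LinearMap.trace T ρ.V (ρ.ρ (a * (ν * μ))) ∈ maximalIdeal T :=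
          (mem_maximalIdeal _).2 (hcon a μ ν)
        rw [← residue_eq_zero_iff, map_sub, htr, htr, hqmul, hqmul, hqmul, hqmul] at h1
        rw [mul_sub, Matrix.trace_sub]
        exact h1
      | zero => simp
      | add a c _ _ ha hc => rw [add_mul, Matrix.trace_add, ha, hc, add_zero]
      | smul c a _ ha => rw [smul_mul_assoc, Matrix.trace_smul, ha, smul_zero]
    refine sub_eq_zero.1 (Matrix.ext fun i j => ?_)
    have := h0 (Matrix.single j i 1)
    simpa [Matrix.trace_single_mul] using this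
  have hall : ∀ X Y : Matrix (Fin 2) (Fin 2) (ResidueField T), X * Y = Y * X := by
    intro X Y
    have hX : X ∈ Submodule.span (ResidueField T) (Set.range q) := htop ▸ Submodule.mem_top
    have hY : Y ∈ Submodule.span (ResidueField T) (Set.range q) := htop ▸ Submodule.mem_top
    induction hX using Submodule.span_induction with
    | mem X hX =>
      obtain ⟨μ, rfl⟩ := hX
      induction hY using Submodule.span_induction with
      | mem Y hY =>
        obtain ⟨ν, rfl⟩ := hY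
        exact hC μ ν
      | zero => simp
      | add a c _ _ ha hc => rw [mul_add, add_mul, ha, hc]
      | smul c a _ ha => rw [mul_smul_comm, smul_mul_assoc, ha]
    | zero => simp
    | add a c _ _ ha hc => rw [mul_add, add_mul, ha, hc]
    | smul c a _ ha => rw [mul_smul_comm, smul_mul_assoc, ha]
  have := congrFun (congrFun (hall (Matrix.single 0 1 1) (Matrix.single 1 0 1)) 0) 0
  simp at this

end

variable {N : ℕ} [NeZero N] {S : Finset ℕ} {𝒪 : Type} [CommRing 𝒪] [IsDomain 𝒪]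
  [IsDiscreteValuationRing 𝒪]
  [IsAdicComplete (maximalIdeal 𝒪) 𝒪]
  {θ : CuspForm.heckeAlgebra N 2 (↑S : Set ℕ) →+* ResidueField 𝒪}
  {T : Type} [CommRing T] [IsLocalRing T] [IsNoetherianRing T]
  [IsAdicComplete (maximalIdeal T) T] [Algebra 𝒪 T] [IsLocalHom (algebraMap 𝒪 T)]
  [Module.Finite 𝒪 T] [Module.Free 𝒪 T]

/-- `t(σ)` with `twist σ = t(σ)` on `n`-torsion and `π (t σ) ≡ tr ρ σ`. -/
theorem exists_twist_eq (D : HeckeLattice N) (G : GaloisInputs N) {p : ℕ} (hp : p.Prime)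
    (hpS : p ∈ S) (hNS : ∀ q : ℕ, q.Prime → q ∣ N → q ∈ S)
    (H : CuspForm.HeckeGaloisRepDatum N (↑S : Set ℕ) 𝒪 θ T) (M k : ℕ) [NeZero (p ^ k)]
    (σ : GalQ) : ∃ t : CuspForm.heckeAlgebra N 2 (↑S : Set ℕ),
      (∀ v, D.twist (p ^ k) σ v = D.tors (p ^ k) (D.actS _ t v)) ∧
        LinearMap.trace T H.ρ.V (H.ρ.ρ σ) - H.π t ∈ maximalIdeal T ^ M := by
  classical
  set n := p ^ k with hndef
  have hn : 0 < n := pow_pos hp.pos _
  obtain ⟨L1, hL1, h1⟩ := D.exists_tors_level G hn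
  obtain ⟨L2, hL2, h2⟩ := exists_cyc_level n
  obtain ⟨L3, hL3, h3⟩ := H.ρ.isAdicContinuous M
  haveI := hL1; haveI := hL2; haveI := hL3
  obtain ⟨ℓ, A, τ, j, hℓ, hℓS', hA, hτ, hagree⟩ :=
    FLTAgent.Chebotarev.exists_frobenius_pow (L1 ⊔ L2 ⊔ L3) σ S
  have hℓN : ¬ ℓ ∣ N := fun h => hℓS' (hNS ℓ hℓ h)
  have hℓn : ¬ ℓ ∣ n := fun h => hℓS' ((Nat.prime_dvd_prime_iff_eq hℓ hp).1
    (hℓ.dvd_of_dvd_pow h) ▸ hpS)
  set g' : GalQ := σ⁻¹ * τ ^ j with hg'
  have hτj : τ ^ j = σ * g' := by rw [hg', mul_inv_cancel_left]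
  have hfix : ∀ y ∈ L1 ⊔ L2 ⊔ L3, g' y = y := fun y hy => by
    rw [hg', AlgEquiv.mul_apply, hagree y hy]
    exact σ.symm_apply_apply y
  refine ⟨powerTrace (CuspForm.heckeAlgebra.T hℓ hℓN hℓS')
    (ℓ : CuspForm.heckeAlgebra N 2 (↑S : Set ℕ)) j, fun v => ?_, ?_⟩
  · rw [← D.twist_pow G _ hℓ hℓN hℓS' hℓn hA hτ j v]
    have hg1 := h1 g' fun y hy => hfix y (le_sup_left (a := L1 ⊔ L2) (le_sup_left (a := L1) hy))
    have hg2 := h2 g' fun y hy => hfix y (le_sup_left (a := L1 ⊔ L2) (le_sup_right (a := L1) hy))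
    rw [hτj, HeckeLattice.twist, HeckeLattice.twist, mul_smul, hg1, cyc_mul, hg2, mul_one,
      mul_inv_rev, mul_smul]
    congr 2
    obtain ⟨w, hw⟩ := D.exists_tors_eq_smul hn σ⁻¹ v
    rw [← hw]
    exact eq_inv_smul_iff.2 (hg1 w)
  · have htr := trace_pow_eq H.ρ.finrank_eq (H.charpoly_frob ℓ hℓ hℓN hℓS' A hA τ hτ) j
    rw [map_powerTrace, map_natCast, ← htr, ← map_pow, ← map_sub]
    refine trace_mem_of_forall_mem _ _ fun v => ?_
    have h4 := h3 _ (fun y hy => hfix y (le_sup_right (a := L1 ⊔ L2) hy)) v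
    have h5 : (H.ρ.ρ σ - H.ρ.ρ (τ ^ j)) v = -(H.ρ.ρ σ (H.ρ.ρ g' v - v)) := by
      rw [map_sub, ← Module.End.mul_apply, ← map_mul, ← hτj, neg_sub, LinearMap.sub_apply]
    rw [h5]
    refine neg_mem ?_
    refine Submodule.smul_induction_on h4 ?_ ?_
    · intro a ha w _
      rw [map_smul]
      exact Submodule.smul_mem_smul ha trivial
    · intro x y hx hy
      rw [map_add]
      exact add_mem hx hy

set_option maxHeartbeats 1000000 in
/-- The key point: an element killing the torsion has trace `≡ 0`. -/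
theorem trace_sum_mem (D : HeckeLattice N) (G : GaloisInputs N)
    (H : CuspForm.HeckeGaloisRepDatum N (↑S : Set ℕ) 𝒪 θ T) {M n : ℕ} (hM : 0 < M) (hn : 0 < n)
    [NeZero n] (t : GalQ → CuspForm.heckeAlgebra N 2 (↑S : Set ℕ))
    (ht : ∀ (σ : GalQ) (v : D.Lam), D.twist n σ v = D.tors n (D.actS _ (t σ) v))
    (htr : ∀ σ : GalQ, LinearMap.trace T H.ρ.V (H.ρ.ρ σ) - H.π (t σ) ∈ maximalIdeal T ^ M)
    (hsat' : ∀ s : CuspForm.heckeAlgebra N 2 (↑S : Set ℕ),
      (∀ v, D.tors n (D.actS _ s v) = 0) → H.π s ∈ maximalIdeal T ^ M)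
    {ι : Type} [Fintype ι] (a : ι → ℤ) (g : ι → GalQ)
    (hkill : ∀ x : JZero N, n • x = 0 → ∑ i, a i • g i • x = 0) :
    ∑ i, (a i : T) * LinearMap.trace T H.ρ.V (H.ρ.ρ (g i)) ∈ maximalIdeal T ^ M := by
  classical
  -- `R x = ∑ aᵢ c(gᵢ) gᵢ⁻¹ x`
  let R : JZero N →+ JZero N :=
    { toFun := fun x => ∑ i, a i • (cyc n (g i)).val • ((g i)⁻¹ • x)
      map_zero' := by simp
      map_add' := fun x y => by
        rw [← Finset.sum_add_distrib]
        exact Finset.sum_congr rfl fun i _ => by rw [smul_add, nsmul_add, zsmul_add] }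
  have hR : ∀ x, R x = ∑ i, a i • (cyc n (g i)).val • ((g i)⁻¹ • x) := fun x => rfl
  have htor : ∀ (σ : GalQ) {x : JZero N}, n • x = 0 → n • (σ • x) = 0 := fun σ x hx => by
    obtain ⟨v, rfl⟩ := (D.nsmul_eq_zero_iff n hn x).1 hx
    exact D.nsmul_smul_tors hn σ v
  have hnR : ∀ {x : JZero N}, n • x = 0 → n • R x = 0 := fun hx => by
    rw [← map_nsmul, hx, map_zero]
  -- the Hecke operators of the translates
  have hy : ∀ (μ : GalQ) (v : D.Lam),
      D.tors n (D.actS _ (∑ i, a i • t (μ * g i)) v) =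
        (cyc n μ).val • R (μ⁻¹ • D.tors n v) := by
    intro μ v
    have h0 : ∑ i, a i • (μ * g i) • D.tors n v = 0 := by
      simp only [mul_smul]
      rw [← smul_sum_zsmul, hkill _ (D.nsmul_tors hn v), smul_zero]
    rw [map_sum, LinearMap.sum_apply, map_sum]
    calc ∑ i, D.tors n (D.actS _ (a i • t (μ * g i)) v)
        = ∑ i, a i • D.twist n (μ * g i) v := Finset.sum_congr rfl fun i _ => by
          rw [map_zsmul, LinearMap.smul_apply, map_zsmul, ← ht]
      _ = ∑ i, a i • ((cyc n (μ * g i)).val • ((μ * g i)⁻¹ • D.tors n v)) := by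
          rw [Finset.sum_congr rfl fun i _ => show a i • D.twist n (μ * g i) v =
            a i • ((μ * g i) • D.tors n v) + a i • ((cyc n (μ * g i)).val •
              ((μ * g i)⁻¹ • D.tors n v)) from zsmul_add _ _ _, Finset.sum_add_distrib, h0, zero_add]
      _ = _ := by
          rw [hR, ← Finset.sum_nsmul]
          refine Finset.sum_congr rfl fun i _ => ?_
          rw [cyc_mul, mul_inv_rev, mul_smul,
            val_mul_nsmul (htor _ (htor _ (D.nsmul_tors hn v)))]
          exact (map_zsmul (nsmulAddMonoidHom (α := JZero N) (cyc n μ).val) _ _).symm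
  have hy1 : ∀ v : D.Lam, D.tors n (D.actS _ (∑ i, a i • t (g i)) v) = R (D.tors n v) := by
    intro v
    have := hy 1 v
    rw [inv_one, one_smul, cyc_one, val_one_nsmul (hnR (D.nsmul_tors hn v))] at this
    simpa using this
  have hcomm : ∀ (u : CuspForm.heckeAlgebra N 2 (↑S : Set ℕ)) (ν : GalQ) (v w : D.Lam),
      D.tors n w = ν • D.tors n v → D.tors n (D.actS _ u w) = ν • D.tors n (D.actS _ u v) :=
    fun u ν v w h => D.galois_hecke G (D.actS_mem _ u) hn ν v w h
  have hRcomm : ∀ (ν : GalQ) {x : JZero N}, n • x = 0 → R (ν • x) = ν • R x := by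
    intro ν x hx
    obtain ⟨v, rfl⟩ := (D.nsmul_eq_zero_iff n hn x).1 hx
    obtain ⟨w, hw⟩ := D.exists_tors_eq_smul hn ν v
    rw [← hw, ← hy1, ← hy1]
    exact hcomm _ ν v w hw
  have hswap : ∀ (μ ν : GalQ) {x : JZero N}, n • x = 0 → R (μ • ν • x) = R (ν • μ • x) := by
    suffices h : ∀ (μ ν : GalQ) {x : JZero N}, n • x = 0 →
        R (μ⁻¹ • ν • x) = R (ν • μ⁻¹ • x) by
      intro μ ν x hx
      have := h μ⁻¹ ν hx
      rwa [inv_inv] at this
    intro μ ν x hx
    obtain ⟨v, rfl⟩ := (D.nsmul_eq_zero_iff n hn x).1 hx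
    obtain ⟨w, hw⟩ := D.exists_tors_eq_smul hn ν v
    have h := hcomm (∑ i, a i • t (μ * g i)) ν v w hw
    rw [hy, hy, hw] at h
    have h' : (cyc n μ).val • R (μ⁻¹ • ν • D.tors n v) =
        (cyc n μ).val • R (ν • μ⁻¹ • D.tors n v) := by
      rw [h, hRcomm ν (htor _ (D.nsmul_tors hn v))]
      exact map_nsmul (DistribSMul.toAddMonoidHom (JZero N) ν) _ _
    have hu : cyc n μ⁻¹ * cyc n μ = 1 := by rw [← cyc_mul, inv_mul_cancel, cyc_one]
    have h'' := congrArg ((cyc n μ⁻¹).val • ·) h'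
    rwa [← val_mul_nsmul (hnR (htor _ (htor _ hx))), ← val_mul_nsmul (hnR (htor _ (htor _ hx))), hu,
      val_one_nsmul (hnR (htor _ (htor _ hx))), val_one_nsmul (hnR (htor _ (htor _ hx)))] at h''
  obtain ⟨α, μ, ν, hunit⟩ := exists_trace_commutator_unit H.ρ H.residual_absIrr
  have hprod : H.π ((∑ i, a i • t (g i)) * (t (α * (μ * ν)) - t (α * (ν * μ)))) ∈
      maximalIdeal T ^ M := by
    refine hsat' _ fun v => ?_
    rw [map_mul, Module.End.mul_apply, hy1, map_sub, LinearMap.sub_apply, map_sub, ← ht, ← ht,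
      map_sub, sub_eq_zero]
    exact twist_swap R htor hRcomm hswap (cyc n) (cyc_mul n) α μ ν (D.nsmul_tors hn v)
  rw [map_mul] at hprod
  have hd : IsUnit (H.π (t (α * (μ * ν)) - t (α * (ν * μ)))) := by
    have hdiff : (LinearMap.trace T H.ρ.V (H.ρ.ρ (α * (μ * ν))) -
        LinearMap.trace T H.ρ.V (H.ρ.ρ (α * (ν * μ)))) -
          H.π (t (α * (μ * ν)) - t (α * (ν * μ))) ∈ maximalIdeal T := by
      rw [map_sub]
      have := sub_mem (Ideal.pow_le_self hM.ne' (htr (α * (μ * ν))))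
        (Ideal.pow_le_self hM.ne' (htr (α * (ν * μ))))
      convert this using 1
      ring
    by_contra hcon
    have := add_mem hdiff ((mem_maximalIdeal _).2 hcon)
    rw [sub_add_cancel] at this
    exact ((mem_maximalIdeal _).1 this) hunit
  have hπ : H.π (∑ i, a i • t (g i)) ∈ maximalIdeal T ^ M :=
    ((maximalIdeal T ^ M).mul_unit_mem_iff_mem hd).1 hprod
  have hsum : ∑ i, (a i : T) * (LinearMap.trace T H.ρ.V (H.ρ.ρ (g i)) - H.π (t (g i))) ∈
      maximalIdeal T ^ M := sum_mem fun i _ => Ideal.mul_mem_left _ _ (htr (g i))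
  convert add_mem hsum hπ using 1
  rw [map_sum, ← Finset.sum_add_distrib]
  refine Finset.sum_congr rfl fun i _ => ?_
  rw [map_zsmul, zsmul_eq_mul]
  ring


theorem exists_annihilator_bound (D : HeckeLattice N) (G : GaloisInputs N) {p : ℕ} (hp : p.Prime)
    (hp𝒪 : (p : 𝒪) ∈ maximalIdeal 𝒪) (hpS : p ∈ S)
    (hNS : ∀ q : ℕ, q.Prime → q ∣ N → q ∈ S)
    (H : CuspForm.HeckeGaloisRepDatum N (↑S : Set ℕ) 𝒪 θ T) (M : ℕ) :
    ∃ n : ℕ, 0 < n ∧ ∀ {ι : Type} [Fintype ι] (a : ι → ℤ) (g : ι → GalQ),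
      (∀ x : JZero N, n • x = 0 → ∑ i, a i • g i • x = 0) →
        ∀ v : H.ρ.V, ∑ i, a i • H.ρ.ρ (g i) v ∈
          maximalIdeal T ^ M • (⊤ : Submodule T H.ρ.V) := by
  classical
  rcases Nat.eq_zero_or_pos M with rfl | hM
  · exact ⟨1, one_pos, fun a g _ v => by simp⟩
  obtain ⟨e, c, hpc, hsat⟩ := D.exists_saturation (↑S : Set ℕ) hp
  have hpT : (p : T) ∈ maximalIdeal T := by
    rw [← map_natCast (algebraMap 𝒪 T)]
    exact map_nonunit (algebraMap 𝒪 T) _ hp𝒪
  have hcT : IsUnit (c : T) := by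
    by_contra hcu
    obtain ⟨a, b, hab⟩ := (hp.coprime_iff_not_dvd.2 hpc).isCoprime
    apply (maximalIdeal.isMaximal T).ne_top
    rw [Ideal.eq_top_iff_one]
    have h1 : (a : T) * p + (b : T) * c = 1 := by exact_mod_cast congrArg (fun z : ℤ => (z : T)) hab
    rw [← h1]
    exact add_mem (Ideal.mul_mem_left _ _ hpT) (Ideal.mul_mem_left _ _ hcu)
  set n := p ^ (M + e) with hndef
  have hn : 0 < n := pow_pos hp.pos _
  haveI : NeZero n := ⟨hn.ne'⟩
  choose t ht htr using fun σ : GalQ => exists_twist_eq D G hp hpS hNS H M (M + e) σ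
  have hsat' : ∀ s : CuspForm.heckeAlgebra N 2 (↑S : Set ℕ),
      (∀ v, D.tors n (D.actS _ s v) = 0) → H.π s ∈ maximalIdeal T ^ M := by
    intro s hs
    obtain ⟨u, hu⟩ := hsat M s hs
    have h := congrArg H.π hu
    rw [map_zsmul, map_zsmul, zsmul_eq_mul, zsmul_eq_mul, Int.cast_natCast, Int.cast_natCast,
      Nat.cast_pow] at h
    refine ((maximalIdeal T ^ M).unit_mul_mem_iff_mem hcT).1 ?_
    rw [h]
    exact Ideal.mul_mem_right _ _ (Ideal.pow_mem_pow hpT M)
  refine ⟨n, hn, fun {ι} _ a g hkill => ?_⟩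
  suffices key : ∀ g : ι → GalQ, (∀ x : JZero N, n • x = 0 → ∑ i, a i • g i • x = 0) →
      ∑ i, (a i : T) * LinearMap.trace T H.ρ.V (H.ρ.ρ (g i)) ∈ maximalIdeal T ^ M by
    intro v
    have hX : ∀ w, (∑ i, a i • H.ρ.ρ (g i)) w = ∑ i, a i • H.ρ.ρ (g i) w := fun w => by
      rw [LinearMap.sum_apply]; rfl
    rw [← hX]
    refine mem_smul_top_of_trace_mem H.ρ H.residual_absIrr _ _ (fun σ => ?_) v
    have h := key (fun i => σ * g i) fun x hx => by
      simp only [mul_smul]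
      rw [← smul_sum_zsmul, hkill x hx, smul_zero]
    convert h using 1
    rw [Finset.mul_sum, map_sum]
    refine Finset.sum_congr rfl fun i _ => ?_
    rw [mul_smul_comm, map_zsmul, zsmul_eq_mul, ← map_mul]
  exact fun g hg => trace_sum_mem D G H hM hn t ht htr hsat' a g hg

end FLTAgent.FlatDatum

end
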